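import Mathlib
import Fermat.Prelude.Def_ModularCurve_GenusNumerics
import Fermat.Agent.FF.HurwitzFF
import Fermat.Agent.P1Count.Count
import Fermat.Agent.P1Count.Cusps
import Fermat.Agent.P1Count.ParityGamma0

/-! Assembly of S24 from the orbit data (helper80). -/

set_option autoImplicit false

noncomputable section

open AlgebraicCurve IsLocalRing ModularGroup
open scoped IntermediateField MatrixGroups
open Fermat.Agent.FF Fermat.Agent.P1Parity

namespace Fermat.Agent.S24aux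

variable {K F : Type*} [Field K] [Field F] [Algebra K F]

/-- Data describing the places over `y = 0` through embeddings of `F` into a valued field. -/
structure OrbitDatum (K : Type*) {F : Type*} [Field K] [Field F] [Algebra K F] (y : F)
    {X : Type*} (π : Equiv.Perm X) (L : Type*) [Field L] where
  Ψ : X → (F →+* L)
  inj : Function.Injective Ψ
  mapK : ∀ x x' (c : K), Ψ x (algebraMap K F c) = Ψ x' (algebraMap K F c)
  mapy : ∀ x x', Ψ x y = Ψ x' y
  o : L → ℤ
  o_mul : ∀ f g, f ≠ 0 → g ≠ 0 → o (f * g) = o f + o g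
  o_add : ∀ f g, f ≠ 0 → g ≠ 0 → f + g ≠ 0 → min (o f) (o g) ≤ o (f + g)
  oK : ∀ x (c : K), c ≠ 0 → o (Ψ x (algebraMap K F c)) = 0
  oy : ∀ x, 0 < o (Ψ x y)
  o_perm : ∀ x f, f ≠ 0 → o (Ψ (π x) f) = o (Ψ x f)
  dvd : ∀ x (r : ℕ), 0 < r → (π ^ r) x = x → ∀ f, f ≠ 0 → o (Ψ x y) ∣ r * o (Ψ x f)

theorem OrbitDatum.card_eq [IsAlgClosed K] [CharZero K] [IsFF K F] {y : F}
    (hy : Transcendental K y) {X : Type*} [Finite X]
    (hcard : Nat.card X = Module.finrank K⟮y⟯ F) {π : Equiv.Perm X} {L : Type*} [Field L]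
    (d : OrbitDatum K y π L) :
    Nat.card {v : Place K F // 0 < v.ord y} = orbits π := by
  have hfin := IsFF.finite_adjoin y hy
  exact (FFOrb.card_places_of_sum y hy (FFHur.sum_ord hy) d.Ψ d.inj hcard d.mapK d.mapy d.o
    d.o_mul d.o_add d.oK d.oy π d.o_perm d.dvd).2

theorem orbits_one {X : Type*} : orbits (1 : Equiv.Perm X) = Nat.card X := by
  refine (Nat.card_congr (Equiv.ofBijective
    (fun x : X => (Quotient.mk'' x :
      MulAction.orbitRel.Quotient (Subgroup.zpowers (1 : Equiv.Perm X)) X)) ⟨?_, ?_⟩)).symm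
  · intro x y hxy
    have h1 : x ∈ MulAction.orbit (Subgroup.zpowers (1 : Equiv.Perm X)) y :=
      MulAction.orbitRel_apply.mp (Quotient.exact hxy)
    rw [mem_orbit_iff] at h1
    obtain ⟨k, hk⟩ := h1
    rw [one_zpow] at hk
    exact hk.symm
  · intro q
    induction q using Quotient.inductionOn' with
    | h x => exact ⟨x, rfl⟩

theorem numerics_aux (n cS cU cT p ν2 ν3 c oS oU oT : ℕ) (h1 : Even (n + cS + cU + cT))
    (h2 : cS + cU + cT ≤ n + 2) (h3 : 2 * cS = n + ν2) (h4 : 3 * cU = n + 2 * ν3) (h5 : cT = c)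
    (h8 : n = p) (h11 : cS = oS) (h12 : cU = oU) (h13 : cT = oT) :
    ∃ g : ℕ, 2 * (g : ℤ) - 2 = (n : ℤ) - oU - oS - oT ∧
      (g : ℚ) = 1 + (p : ℚ) / 12 - (ν2 : ℚ) / 4 - (ν3 : ℚ) / 3 - (c : ℚ) / 2 := by
  obtain ⟨k, hk⟩ := h1
  subst h11 h12 h13 h5 h8
  refine ⟨k + 1 - (cS + cU + cT), ?_, ?_⟩
  · omega
  · have h9 : ((k + 1 - (cS + cU + cT) : ℕ) : ℤ) = (k : ℤ) + 1 - (cS + cU + cT) := by omega
    have h10 : ((k + 1 - (cS + cU + cT) : ℕ) : ℚ) = (k : ℚ) + 1 - (cS + cU + cT) := by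
      exact_mod_cast h9
    rw [h10]
    have h3' : (2 : ℚ) * cS = n + ν2 := by exact_mod_cast h3
    have h4' : (3 : ℚ) * cU = n + 2 * ν3 := by exact_mod_cast h4
    have hk' : (n : ℚ) + cS + cU + cT = k + k := by exact_mod_cast hk
    linarith

/-- numerics -/
theorem exists_genus (N : ℕ) [NeZero N] : ∃ g : ℕ,
    2 * (g : ℤ) - 2 = (Nat.card (SL(2, ℤ) ⧸ CongruenceSubgroup.Gamma0 N) : ℤ)
      - orbits (MulAction.toPerm (S * T) : Equiv.Perm (SL(2, ℤ) ⧸ CongruenceSubgroup.Gamma0 N))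
      - orbits (MulAction.toPerm S : Equiv.Perm (SL(2, ℤ) ⧸ CongruenceSubgroup.Gamma0 N))
      - orbits (MulAction.toPerm T : Equiv.Perm (SL(2, ℤ) ⧸ CongruenceSubgroup.Gamma0 N)) ∧
    (g : ℚ) = ModularCurve.genusFormula N := by
  have h3 := two_mul_orbits_S N
  have h4 := three_mul_orbits_ST N
  rw [P1Count.card_fixed_S N] at h3
  rw [P1Count.card_fixed_ST N] at h4
  exact numerics_aux _ _ _ _ _ _ _ _ _ _ _ (even_card_Gamma0 N) (orbits_le_Gamma0 N) h3 h4
    (P1Count.card_orbits_T N) (P1Count.card_coset N) (card_orbits_zpowers S)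
    (card_orbits_zpowers (S * T)) (card_orbits_zpowers T)

/-- `X₀(N)` coset space -/
abbrev XN (N : ℕ) : Type := SL(2, ℤ) ⧸ CongruenceSubgroup.Gamma0 N

/-- S24 from the orbit data. -/
theorem genus_eq_of_data (N : ℕ) [NeZero N] [IsAlgClosed K] [CharZero K]
    [HasCanonicalDivisor (K := K) (F := F)] (j : F) (hj : Transcendental K j)
    [FiniteDimensional K⟮j⟯ F] (hn : Module.finrank K⟮j⟯ F = Nat.card (XN N))
    {M L : Type*} [Field M] [Field L]
    (d0 : OrbitDatum K j (MulAction.toPerm (S * T) : Equiv.Perm (XN N)) M)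
    (d1 : OrbitDatum K (j - algebraMap K F 1728) (MulAction.toPerm S : Equiv.Perm (XN N)) M)
    (da : ∀ a : K, a ≠ 0 → a ≠ 1728 →
      Nonempty (OrbitDatum K (j - algebraMap K F a) (1 : Equiv.Perm (XN N)) M))
    (dinf : OrbitDatum K j⁻¹ (MulAction.toPerm T : Equiv.Perm (XN N)) L) :
    (genus K F : ℚ) = ModularCurve.genusFormula N := by
  classical
  have hFF : IsFF K F := IsFF.of_finite hj
  obtain ⟨g, hg1, hg2⟩ := exists_genus N
  have hn0 : Module.finrank K⟮j - algebraMap K F 0⟯ F = Nat.card (XN N) := by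
    rw [FFFund.finrank_of_eq (FFFund.adjoin_sub_algebraMap j 0), hn]
  have hna : ∀ a : K, Nat.card (XN N) = Module.finrank K⟮j - algebraMap K F a⟯ F := by
    intro a
    rw [FFFund.finrank_of_eq (FFFund.adjoin_sub_algebraMap j a), hn]
  have hninf : Nat.card (XN N) = Module.finrank K⟮j⁻¹⟯ F := by
    rw [FFFund.finrank_of_eq (FFFund.mem_or_inv_mem_adjoin j), hn]
  have h0 : Nat.card {v : Place K F // 0 < v.ord (j - algebraMap K F 0)}
      = orbits (MulAction.toPerm (S * T) : Equiv.Perm (XN N)) := by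
    rw [← d0.card_eq hj hn.symm]
    refine Nat.card_congr (Equiv.subtypeEquivRight fun v => ?_)
    rw [map_zero, sub_zero]
  have h1 : Nat.card {v : Place K F // 0 < v.ord (j - algebraMap K F 1728)}
      = orbits (MulAction.toPerm S : Equiv.Perm (XN N)) :=
    d1.card_eq (FFFund.transcendental_sub hj 1728) (hna _)
  have hinf : Nat.card {v : Place K F // 0 < v.ord j⁻¹}
      = orbits (MulAction.toPerm T : Equiv.Perm (XN N)) :=
    dinf.card_eq (FFFund.transcendental_inv hj) hninf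
  have hne : (0 : K) ≠ 1728 := by norm_num
  rw [← hg2, FFHur.genus_eq j hj {0, 1728} ?_ g ?_]
  · intro a ha
    simp only [Finset.mem_insert, Finset.mem_singleton, not_or] at ha
    obtain ⟨d⟩ := da a ha.1 ha.2
    rw [d.card_eq (FFFund.transcendental_sub hj a) (hna _), orbits_one, hn]
  · rw [hg1, Finset.sum_pair hne, h0, h1, hinf, hn]
    ring

end Fermat.Agent.S24aux
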