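import Mathlib
import Fermat.Agent.S24.Assembly
import Fermat.Agent.X0Emb.Embed

/-! The orbit data at the points `j = a` and `j = ∞` (helper80). -/

set_option autoImplicit false

open UpperHalfPlane Complex Function Filter Topology ModularForm
open scoped Manifold MatrixGroups IntermediateField

noncomputable section

namespace Fermat.Agent.S24aux

open Fermat.Agent.JLevelOne Fermat.Agent.X0Emb Fermat.Agent.X0Deg

/-- every element of `MerH` is a quotient -/
theorem exists_quot (f : MerH) : ∃ a b : Hol, b ≠ 0 ∧ f * algebraMap Hol MerH b = algebraMap Hol MerH a := by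
  obtain ⟨⟨a, b⟩, h⟩ := IsLocalization.surj (nonZeroDivisors Hol) f
  exact ⟨a, b, nonZeroDivisors.ne_zero b.2, h⟩

theorem aM_ne_zero {b : Hol} (hb : b ≠ 0) : algebraMap Hol MerH b ≠ 0 := fun h =>
  hb (IsFractionRing.injective Hol MerH (by rw [h, map_zero]))

theorem smul_ne_zero_hol (g : SL(2, ℤ)) {b : Hol} (hb : b ≠ 0) : g • b ≠ 0 := fun h => hb (by
  have := congrArg (fun u => g⁻¹ • u) h
  simpa using this)

theorem ordAt_smul_of_fixed {τ0 : ℍ} {g : SL(2, ℤ)} (hg : g • τ0 = τ0) (f : MerH) (hf : f ≠ 0) :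
    ordAt τ0 (g • f) = ordAt τ0 f := by
  have hg' : g⁻¹ • τ0 = τ0 := by rw [inv_smul_eq_iff, hg]
  obtain ⟨a, b, hb, h⟩ := exists_quot f
  have ha : a ≠ 0 := by
    rintro rfl
    rw [map_zero] at h
    exact (mul_ne_zero hf (aM_ne_zero hb)) h
  have key : ∀ c : Hol, c ≠ 0 → ordAt τ0 (algebraMap Hol MerH (g • c)) =
      ordAt τ0 (algebraMap Hol MerH c) := by
    intro c hc
    rw [ordAt_algebraMap τ0 hc, ordAt_algebraMap τ0 (smul_ne_zero_hol g hc), ordH_smul, hg']
  have hgf : g • f ≠ 0 := fun h0 => hf (by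
    have := congrArg (fun u => g⁻¹ • u) h0
    simpa using this)
  have h1 := congrArg (fun u : MerH => g • u) h
  simp only [smul_mul', smul_algebraMap_merH] at h1
  have h2 := ordAt_mul τ0 (g • f) _ hgf (aM_ne_zero (smul_ne_zero_hol g hb))
  rw [h1, key a ha, key b hb] at h2
  have h3 := ordAt_mul τ0 f _ hf (aM_ne_zero hb)
  rw [h] at h3
  omega

theorem dvd_ordAt {τ0 : ℍ} {g : SL(2, ℤ)} {m : ℕ} (hm : 0 < m) (hg : ∀ b : Hol, g ^ m • b = b)
    {d : ℤ} (hd : ∀ h : Hol, h ≠ 0 → g • h = h → d ∣ ((ordH τ0 h).toNat : ℤ)) {f : MerH}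
    (hf : f ≠ 0) (hgf : g • f = f) : d ∣ ordAt τ0 f := by
  obtain ⟨a, b, hb, h⟩ := exists_quot f
  let c : Hol := ∏ i ∈ Finset.range (m - 1), g ^ (i + 1) • b
  have hP : g • (b * c) = b * c := by
    have h1 : b * c = ∏ i ∈ Finset.range m, g ^ i • b := by
      obtain ⟨m, rfl⟩ : ∃ k, m = k + 1 := ⟨m - 1, by omega⟩
      rw [Finset.prod_range_succ']
      simp [c, mul_comm]
    have h2 : g • (b * c) = ∏ i ∈ Finset.range m, g ^ (i + 1) • b := by
      rw [h1, Finset.smul_prod']
      refine Finset.prod_congr rfl fun i _ => ?_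
      rw [smul_smul, ← pow_succ']
    rw [h2, h1]
    have h3 := Finset.prod_range_succ (fun i => g ^ i • b) m
    rw [Finset.prod_range_succ', hg, pow_zero, one_smul] at h3
    exact mul_right_cancel₀ hb h3
  have hPne : b * c ≠ 0 := by
    refine mul_ne_zero hb (Finset.prod_ne_zero_iff.mpr fun i _ => smul_ne_zero_hol _ hb)
  have h4 : f * algebraMap Hol MerH (b * c) = algebraMap Hol MerH (a * c) := by
    rw [map_mul, map_mul, ← mul_assoc, h]
  have h5 : g • (a * c) = a * c := by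
    apply IsFractionRing.injective Hol MerH
    rw [← smul_algebraMap_merH, ← h4, smul_mul', hgf, smul_algebraMap_merH, hP]
  have h6 : a * c ≠ 0 := by
    intro h0
    rw [h0, map_zero] at h4
    exact (mul_ne_zero hf (aM_ne_zero hPne)) h4
  have h7 := ordAt_mul τ0 f _ hf (aM_ne_zero hPne)
  rw [h4, ordAt_algebraMap τ0 h6, ordAt_algebraMap τ0 hPne] at h7
  have h8 := hd _ hPne hP
  have h9 := hd _ h6 h5
  have h10 : ordAt τ0 f = ((ordH τ0 (a * c)).toNat : ℤ) - ((ordH τ0 (b * c)).toNat : ℤ) := by omega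
  rw [h10]
  exact dvd_sub h9 h8

theorem smul_merH_eq_of_hol {g : SL(2, ℤ)} (hg : ∀ b : Hol, g • b = b) (f : MerH) : g • f = f := by
  obtain ⟨a, b, hb, h⟩ := exists_quot f
  have h1 := congrArg (fun u : MerH => g • u) h
  simp only [smul_mul', smul_algebraMap_merH, hg] at h1
  rw [← h] at h1
  exact mul_right_cancel₀ (aM_ne_zero hb) h1

theorem dvd_mul_ordAt {τ0 : ℍ} {g : SL(2, ℤ)} {m : ℕ} (hm : m.Prime)
    (hg : ∀ b : Hol, g ^ m • b = b)
    (hd : ∀ h : Hol, h ≠ 0 → g • h = h → (m : ℤ) ∣ ((ordH τ0 h).toNat : ℤ)) {f : MerH}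
    (hf : f ≠ 0) {r : ℕ} (hr : g ^ r • f = f) : (m : ℤ) ∣ r * ordAt τ0 f := by
  by_cases hmr : m ∣ r
  · exact Dvd.dvd.mul_right (by exact_mod_cast hmr) _
  · refine Dvd.dvd.mul_left (dvd_ordAt hm.pos hg hd hf ?_) _
    have hcop : Nat.gcd m r = 1 := (Nat.Prime.coprime_iff_not_dvd hm).mpr hmr
    have hbez := Nat.gcd_eq_gcd_ab m r
    rw [hcop] at hbez
    have h1 : g ^ m ∈ MulAction.stabilizer SL(2, ℤ) f := smul_merH_eq_of_hol hg f
    have h2 : g ^ r ∈ MulAction.stabilizer SL(2, ℤ) f := hr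
    have h3 : g = (g ^ m) ^ (Nat.gcdA m r) * (g ^ r) ^ (Nat.gcdB m r) := by
      rw [← zpow_natCast g m, ← zpow_natCast g r, ← zpow_mul, ← zpow_mul, ← zpow_add, ← hbez]
      simp
    have h4 : g ∈ MulAction.stabilizer SL(2, ℤ) f := by
      rw [h3]
      exact mul_mem (zpow_mem h1 _) (zpow_mem h2 _)
    exact h4

theorem neg_one_smul_hol (b : Hol) : (-1 : SL(2, ℤ)) • b = b := by
  ext τ
  rw [Hol.smul_apply]
  have : (-1 : SL(2, ℤ))⁻¹ = -1 := by
    rw [inv_eq_iff_mul_eq_one]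
    simp
  rw [this, ModularGroup.SL_neg_smul, one_smul]

theorem ST_pow_three : (ModularGroup.S * ModularGroup.T) ^ 3 = -1 := by decide

theorem S_pow_two : ModularGroup.S ^ 2 = -1 := by decide

theorem dvd_three {h : Hol} (hh : h ≠ 0) (hinv : (ModularGroup.S * ModularGroup.T) • h = h) :
    ((3 : ℕ) : ℤ) ∣ ((ordH ρ h).toNat : ℤ) := by
  have h1 := ordH_ne_top ρ hh
  refine Int.natCast_dvd_natCast.mpr (three_dvd_analyticOrderAt_ρ (Hol.mdiff h) (fun z => ?_)
    (ENat.natCast_toNat h1).symm)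
  have := congrArg (fun u : Hol => u ((ModularGroup.S * ModularGroup.T) • z)) hinv
  simp only [Hol.smul_apply, inv_smul_smul] at this
  exact this.symm

theorem dvd_two {h : Hol} (hh : h ≠ 0) (hinv : (ModularGroup.S) • h = h) :
    ((2 : ℕ) : ℤ) ∣ ((ordH UpperHalfPlane.I h).toNat : ℤ) := by
  have h1 := ordH_ne_top UpperHalfPlane.I hh
  refine Int.natCast_dvd_natCast.mpr (two_dvd_analyticOrderAt_I (Hol.mdiff h) (fun z => ?_)
    (ENat.natCast_toNat h1).symm)
  have := congrArg (fun u : Hol => u ((ModularGroup.S) • z)) hinv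
  simp only [Hol.smul_apply, inv_smul_smul] at this
  exact this.symm

section Datum

variable {K : Type*} [Field K] {F : IntermediateField K (LaurentSeries K)}
  {X : Type*} [MulAction SL(2, ℤ) X] {N : ℕ} (D : EmbData F X N)

theorem embM_jF_sub (x : X) (a : K) : D.embM x (D.jF - algebraMap K F a) =
    algebraMap Hol MerH (jH - constHol (D.ι a)) := by
  rw [map_sub, map_sub, D.embM_jF, D.embM_const]

theorem embM_ne_zero (x : X) {f : F} (hf : f ≠ 0) : D.embM x f ≠ 0 := (map_ne_zero _).mpr hf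

theorem toPerm_pow (g : SL(2, ℤ)) (r : ℕ) (x : X) :
    ((MulAction.toPerm g : Equiv.Perm X) ^ r) x = g ^ r • x := by
  induction r with
  | zero => simp
  | succ r ih => rw [pow_succ', pow_succ', Equiv.Perm.mul_apply, ih, mul_smul]; rfl

/-- the orbit datum at a point of the upper half plane -/
def datum (τ0 : ℍ) (g : SL(2, ℤ)) (hg : g • τ0 = τ0) (a : K) (n : ℕ) (hn0 : 0 < n)
    (hn : ordH τ0 (jH - constHol (D.ι a)) = n)
    (hdvd : ∀ (f : MerH) (r : ℕ), f ≠ 0 → g ^ r • f = f → (n : ℤ) ∣ r * ordAt τ0 f) :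
    OrbitDatum K (D.jF - algebraMap K F a) (MulAction.toPerm g : Equiv.Perm X) MerH where
  Ψ := D.embM
  inj := D.embM_injective
  mapK x x' c := by rw [D.embM_const, D.embM_const]
  mapy x x' := by rw [embM_jF_sub, embM_jF_sub]
  o := ordAt τ0
  o_mul := ordAt_mul τ0
  o_add := ordAt_add τ0
  oK x c hc := by
    have h1 : D.ι c ≠ 0 := (map_ne_zero _).mpr hc
    have h2 : constHol (D.ι c) ≠ 0 := fun h => h1 (by
      have := congrArg (fun u : Hol => u UpperHalfPlane.I) h
      simpa using this)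
    rw [D.embM_const, ordAt_algebraMap τ0 h2, ordH_const τ0 h1]
    rfl
  oy x := by
    have h1 : jH - constHol (D.ι a) ≠ 0 := by
      intro h
      rw [h, ordH_zero] at hn
      exact ENat.top_ne_natCast n hn
    rw [embM_jF_sub, ordAt_algebraMap τ0 h1, hn]
    exact_mod_cast hn0
  o_perm x f hf := by
    rw [MulAction.toPerm_apply, D.embM_smul]
    exact ordAt_smul_of_fixed hg _ (embM_ne_zero D x hf)
  dvd x r hr hx f hf := by
    have h1 : jH - constHol (D.ι a) ≠ 0 := by
      intro h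
      rw [h, ordH_zero] at hn
      exact ENat.top_ne_natCast n hn
    rw [embM_jF_sub, ordAt_algebraMap τ0 h1, hn, ENat.toNat_natCast]
    refine hdvd _ r (embM_ne_zero D x hf) ?_
    rw [toPerm_pow] at hx
    rw [← D.embM_smul, hx]

theorem ordH_jH_sub (τ0 : ℍ) (c : ℂ) : ordH τ0 (jH - constHol c) =
    analyticOrderAt ((fun z => jFun z - c) ∘ ofComplex) τ0 := rfl

/-- the orbit datum at `j = 0` -/
def datum0 : OrbitDatum K (D.jF - algebraMap K F 0)
    (MulAction.toPerm (ModularGroup.S * ModularGroup.T) : Equiv.Perm X) MerH :=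
  datum D ρ _ ST_smul_ρ 0 3 (by norm_num) (by
    rw [ordH_jH_sub, map_zero]
    simpa using! analyticOrderAt_jFun_ρ) fun f r hf hr =>
    dvd_mul_ordAt Nat.prime_three (fun b => by rw [ST_pow_three, neg_one_smul_hol])
      (fun h hh hinv => dvd_three hh hinv) hf hr

/-- the orbit datum at `j = 1728` -/
def datum1 : OrbitDatum K (D.jF - algebraMap K F 1728)
    (MulAction.toPerm ModularGroup.S : Equiv.Perm X) MerH :=
  datum D UpperHalfPlane.I _ S_smul_I 1728 2 (by norm_num) (by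
    rw [ordH_jH_sub, map_ofNat]
    simpa using! analyticOrderAt_jFun_sub_1728_I) fun f r hf hr =>
    dvd_mul_ordAt Nat.prime_two (fun b => by rw [S_pow_two, neg_one_smul_hol])
      (fun h hh hinv => dvd_two hh hinv) hf hr

/-- the orbit datum at `j = a` -/
theorem datuma (a : K) (h0 : a ≠ 0) (h1 : a ≠ 1728) :
    Nonempty (OrbitDatum K (D.jF - algebraMap K F a) (1 : Equiv.Perm X) MerH) := by
  obtain ⟨τ0, hτ0⟩ := jFun_surjective (D.ι a)
  have h4 : E₄ τ0 ≠ 0 := by
    rw [Ne, ← jFun_eq_zero_iff, hτ0]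
    exact (map_ne_zero _).mpr h0
  have h6 : E₆ τ0 ≠ 0 := by
    rw [Ne, ← jFun_eq_1728_iff, hτ0, ← map_ofNat D.ι]
    exact fun h => h1 (D.ι.injective h)
  have hT : (MulAction.toPerm (1 : SL(2, ℤ)) : Equiv.Perm X) = 1 := by
    ext x
    simp
  rw [← hT]
  refine ⟨datum D τ0 1 (one_smul _ _) a 1 one_pos ?_ fun f r _ _ => ?_⟩
  · rw [ordH_jH_sub, ← hτ0]
    exact analyticOrderAt_jFun_sub_of_ne h4 h6
  · simp

/-! ### infinity -/

theorem cone {G : LaurentSeries ℂ} (hG : G ≠ 0) : G.coeff G.order ≠ 0 :=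
  fun h => hG (HahnSeries.coeff_order_eq_zero.mp h)

theorem order_eq {G : LaurentSeries ℂ} {n : ℤ} (h0 : G.coeff n ≠ 0)
    (h : ∀ m < n, G.coeff m = 0) : G.order = n := by
  have hG : G ≠ 0 := by rintro rfl; simp at h0
  refine le_antisymm (HahnSeries.order_le_of_coeff_ne_zero h0) ?_
  by_contra hlt
  rw [not_le] at hlt
  exact cone hG (h _ hlt)

theorem order_twist (c : ℂˣ) {G : LaurentSeries ℂ} (hG : G ≠ 0) : (twist c G).order = G.order := by
  refine order_eq ?_ fun m hm => ?_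
  · rw [twist_coeff]
    exact mul_ne_zero (Units.ne_zero _) (cone hG)
  · rw [twist_coeff, HahnSeries.coeff_eq_zero_of_lt_order hm, mul_zero]

theorem order_qExpand (N : ℕ) [NeZero N] {G : LaurentSeries ℂ} (hG : G ≠ 0) :
    (ModularCurve.qExpand ℂ N G).order = N * G.order := by
  have hN : (0 : ℤ) < N := by exact_mod_cast Nat.pos_of_ne_zero (NeZero.ne N)
  refine order_eq ?_ fun m hm => ?_
  · rw [ModularCurve.qExpand_coeff_mul]
    exact cone hG
  · by_cases h : (N : ℤ) ∣ m
    · obtain ⟨k, rfl⟩ := h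
      rw [ModularCurve.qExpand_coeff_mul]
      exact HahnSeries.coeff_eq_zero_of_lt_order (lt_of_mul_lt_mul_left hm hN.le)
    · exact ModularCurve.qExpand_coeff_of_not_dvd N G h

theorem order_jqModC : (ModularCurve.jqModC ℂ).order = -1 := by
  have h1 : ∀ m : ℤ, (ModularCurve.jqModC ℂ).coeff m = (toLC ModularCurve.jNum).coeff (m + 1) := by
    intro m
    rw [jqModC_eq, HahnSeries.coeff_single_mul, one_mul, sub_neg_eq_add]
  refine order_eq ?_ fun m hm => ?_
  · rw [h1, show (-1 : ℤ) + 1 = ((0 : ℕ) : ℤ) by norm_num]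
    rw [toLC, RingHom.comp_apply, HahnSeries.ofPowerSeries_apply_coeff, PowerSeries.coeff_map,
      PowerSeries.coeff_zero_eq_constantCoeff, ModularCurve.constantCoeff_jNum]
    simp
  · rw [h1, toLC, RingHom.comp_apply]
    exact ModularCurve.ofPowerSeries_coeff_of_neg _ (by omega)

theorem jqModC_ne_zero : ModularCurve.jqModC ℂ ≠ 0 := by
  intro h
  have := order_jqModC
  rw [h, HahnSeries.order_zero] at this
  norm_num at this

theorem embInf_ne_zero [NeZero N] (x : X) {f : F} (hf : f ≠ 0) : D.embInf x f ≠ 0 :=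
  (map_ne_zero _).mpr hf

theorem jF_ne_zero : D.jF ≠ 0 := by
  intro h
  have := D.transcendental_jF
  rw [h] at this
  exact this (isAlgebraic_zero)

theorem order_embInf_inv [NeZero N] (x : X) : (D.embInf x D.jF⁻¹).order = N := by
  have h1 : D.embInf x D.jF⁻¹ * D.embInf x D.jF = 1 := by
    rw [← map_mul, inv_mul_cancel₀ (jF_ne_zero D), map_one]
  have h2 := HahnSeries.order_mul (embInf_ne_zero D x (inv_ne_zero (jF_ne_zero D)))
    (embInf_ne_zero D x (jF_ne_zero D))
  rw [h1, HahnSeries.order_one, D.embInf_jF, order_qExpand N jqModC_ne_zero, order_jqModC] at h2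
  omega

theorem embInf_T_pow_coeff [NeZero N] (x : X) (f : F) (r : ℕ) (n : ℤ) :
    (D.embInf (ModularGroup.T ^ r • x) f).coeff n =
      ((((zetaU 1 N)⁻¹ ^ n) ^ r : ℂˣ) : ℂ) * (D.embInf x f).coeff n := by
  induction r with
  | zero => simp
  | succ r ih =>
    rw [pow_succ', mul_smul, D.embInf_T, twist_coeff, ih, pow_succ', Units.val_mul]
    ring

/-- the orbit datum at infinity -/
def datumInf [NeZero N] : OrbitDatum K (D.jF)⁻¹
    (MulAction.toPerm ModularGroup.T : Equiv.Perm X) (LaurentSeries ℂ) where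
  Ψ := D.embInf
  inj := D.embInf_injective
  mapK x x' c := by rw [D.embInf_const, D.embInf_const]
  mapy x x' := by rw [map_inv₀, map_inv₀, D.embInf_jF, D.embInf_jF]
  o := HahnSeries.order
  o_mul f g hf hg := HahnSeries.order_mul hf hg
  o_add f g _ _ hfg := HahnSeries.min_order_le_order_add hfg
  oK x c _ := by rw [D.embInf_const, HahnSeries.order_C]
  oy x := by
    rw [order_embInf_inv]
    exact_mod_cast Nat.pos_of_ne_zero (NeZero.ne N)
  o_perm x f hf := by
    rw [MulAction.toPerm_apply, D.embInf_T]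
    exact order_twist _ (embInf_ne_zero D x hf)
  dvd x r _ hx f hf := by
    rw [order_embInf_inv]
    rw [toPerm_pow] at hx
    set G := D.embInf x f with hG
    have h1 := embInf_T_pow_coeff D x f r G.order
    rw [hx, ← hG] at h1
    have h2 : G.coeff G.order ≠ 0 := cone (embInf_ne_zero D x hf)
    have h3 : ((((zetaU 1 N)⁻¹ ^ G.order) ^ r : ℂˣ) : ℂ) = 1 :=
      (mul_right_cancel₀ h2 (by rw [one_mul]; exact h1)).symm
    have h4 : ((zetaU 1 N)⁻¹ ^ G.order) ^ r = 1 := Units.ext h3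
    have h5 : (zetaU 1 N) ^ (r * G.order : ℤ) = 1 := by
      rw [inv_zpow, ← zpow_natCast, ← zpow_neg, ← zpow_mul] at h4
      rw [← inv_eq_one, ← zpow_neg, ← h4]
      congr 1
      ring
    have h6 : IsPrimitiveRoot (zetaU 1 N) N := by
      rw [← IsPrimitiveRoot.coe_units_iff]
      have := Complex.isPrimitiveRoot_exp N (NeZero.ne N)
      simpa [zetaU] using this
    exact (h6.zpow_eq_one_iff_dvd _).mp h5

end Datum

end Fermat.Agent.S24aux
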