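import Mathlib
import Fermat.Agent.S24.Data

/-! S24 from the embedding data (helper80). -/

set_option autoImplicit false

open scoped MatrixGroups IntermediateField
open AlgebraicCurve

noncomputable section

namespace Fermat.Agent.S24aux

open Fermat.Agent.X0Deg

theorem genus_eq_of_embData (N : ℕ) [NeZero N] {K : Type*} [Field K] [IsAlgClosed K] [CharZero K]
    {F : IntermediateField K (LaurentSeries K)} [HasCanonicalDivisor (K := K) (F := F)]
    (D : EmbData F (XN N) N) : (genus K F : ℚ) = ModularCurve.genusFormula N := by
  classical
  have : Fintype (XN N) := Fintype.ofFinite _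
  have := D.upper.1
  have h0 : D.jF - algebraMap K F 0 = D.jF := by rw [map_zero, sub_zero]
  exact genus_eq_of_data N D.jF D.transcendental_jF D.finrank_eq (h0 ▸ datum0 D) (datum1 D)
    (datuma D) (datumInf D)

end Fermat.Agent.S24aux
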